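import Fermat.Agent.ModLift.Tangent.ClassInterface
import Fermat.Agent.TWPrimes.Glue.Cocycle
import Fermat.Agent.Lowering.P6.Tame
import Fermat.Agent.Frobenius.Exists
import Fermat.Agent.Places.Basic

/-!
# Lines in the lift of a tangent vector

A tangent vector gives the derivative of the lift. A vector spanning a residual stable line and a
second vector give a stable line over the dual numbers.
-/

set_option autoImplicit false
set_option linter.unusedSectionVars false
set_option linter.style.haveILetI false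

noncomputable section

open IsLocalRing

namespace FLTAgent.ModLift.ClassAux

open FLTAgent.TWPrimes FLTAgent.PoitouTate

local notation "LL" => AlgebraicClosure ℚ
local notation "GG" => (AlgebraicClosure ℚ ≃ₐ[ℚ] AlgebraicClosure ℚ)
local notation "VS" => ValuationSubring (AlgebraicClosure ℚ)
local notation "Dec" => ValuationSubring.decompositionSubgroup ℚ
local notation "M2" => Matrix (Fin 2) (Fin 2)

section Field

variable {k : Type} [Field k]

theorem smul_left_cancel_vec {v : Fin 2 → k} (hv : v ≠ 0) {a b : k} (h : a • v = b • v) : a = b :=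
  smul_left_injective k hv h

theorem cayley_two {A : Type*} [CommRing A] (m : M2 A) :
    m * m = m.trace • m - m.det • 1 := by
  ext i j
  fin_cases i <;> fin_cases j <;>
    simp [Matrix.mul_apply, Fin.sum_univ_two, Matrix.trace_fin_two, Matrix.det_fin_two] <;> ring

/-- An eigenvalue is a root of the characteristic polynomial. -/
theorem eigen_root {m : M2 k} {v : Fin 2 → k} {x : k} (hv : v ≠ 0) (h : m.mulVec v = x • v) :
    x * x - m.trace * x + m.det = 0 := by
  have h1 := congrArg (fun n : M2 k => n.mulVec v) (cayley_two m)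
  simp only [← Matrix.mulVec_mulVec, h, Matrix.mulVec_smul, Matrix.sub_mulVec,
    Matrix.smul_mulVec, Matrix.one_mulVec, smul_smul, ← sub_smul] at h1
  have h2 := smul_left_cancel_vec hv h1
  linear_combination h2

/-- A non zero matrix kills at most one line. -/
theorem exists_smul_of_kills {M : M2 k} (hM : M ≠ 0) {a b : Fin 2 → k} (ha : a ≠ 0)
    (hMa : M.mulVec a = 0) (hMb : M.mulVec b = 0) : ∃ c : k, b = c • a := by
  by_cases hD : a 0 * b 1 - a 1 * b 0 = 0
  · by_cases h0 : a 0 = 0
    · have h1 : a 1 ≠ 0 := fun h1 => ha (funext fun i => by fin_cases i <;> simp [h0, h1])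
      refine ⟨b 1 / a 1, funext fun i => ?_⟩
      rw [h0] at hD
      fin_cases i
      · have hb : b 0 = 0 := by simpa [h1] using hD
        simp [h0, hb]
      · simp [h1]
    · refine ⟨b 0 / a 0, funext fun i => ?_⟩
      fin_cases i
      · simp [h0]
      · simp only [Fin.mk_one, Pi.smul_apply, smul_eq_mul]
        field_simp
        linear_combination hD
  · refine absurd (Matrix.ext fun i j => ?_) hM
    have e1 := congrFun hMa i
    have e2 := congrFun hMb i
    simp only [Matrix.mulVec, dotProduct, Fin.sum_univ_two, Pi.zero_apply] at e1 e2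
    refine (mul_eq_zero.1 ?_).resolve_right hD
    fin_cases j
    · simp only [Fin.zero_eta]; linear_combination b 1 * e1 - a 1 * e2
    · simp only [Fin.mk_one]; linear_combination a 0 * e2 - b 0 * e1

/-- The kernel of a factor is the image of the other. -/
theorem exists_preimage {M M' : M2 k} (hMM : M * M' = 0) (hM : M ≠ 0) (hM' : M' ≠ 0)
    {v : Fin 2 → k} (hv : M.mulVec v = 0) : ∃ u, M'.mulVec u = v := by
  obtain ⟨u₀, hu₀⟩ : ∃ u, M'.mulVec u ≠ 0 := by
    by_contra h
    push Not at h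
    exact hM' (Matrix.ext fun i j => by simpa [Matrix.mulVec_single] using congrFun (h (Pi.single j 1)) i)
  obtain ⟨c, hc⟩ := exists_smul_of_kills hM hu₀
    (by rw [Matrix.mulVec_mulVec, hMM, Matrix.zero_mulVec]) hv
  exact ⟨c • u₀, by rw [Matrix.mulVec_smul, ← hc]⟩

end Field

/-! ### The decomposition group -/

/-- What holds at inertia, at a Frobenius element and on an open subgroup, and is stable under
products, holds on the decomposition group. -/
theorem dec_induction {q : ℕ} (hq : q.Prime) {V : VS} (hV : V.LiesOverPrime q) {φ : GG}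
    (hφ : V.IsFrobeniusAt φ q) {F : IntermediateField ℚ LL} [FiniteDimensional ℚ F]
    {P : GG → Prop} (h1 : P 1) (hmul : ∀ a ∈ Dec V, ∀ b ∈ Dec V, P a → P b → P (a * b))
    (hφP : P φ) (hI : ∀ σ ∈ V.inertiaSubgroupIn ℚ, P σ)
    (hF : ∀ ν ∈ Dec V, (∀ x ∈ F, ν x = x) → P ν) : ∀ σ ∈ Dec V, P σ := by
  intro τ hτ
  haveI : Algebra.IsAlgebraic ℚ LL := AlgebraicClosure.isAlgebraic ℚ
  haveI : IsAlgClosure ℚ LL := ⟨inferInstance, inferInstance⟩
  haveI : Normal ℚ LL := IsAlgClosure.normal ℚ _
  haveI : Normal ℚ ↥(IntermediateField.normalClosure ℚ F LL) := normalClosure.normal ℚ F LL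
  haveI : FiniteDimensional ℚ ↥(IntermediateField.normalClosure ℚ F LL) :=
    normalClosure.is_finiteDimensional ℚ F LL
  obtain ⟨i, ν, σ, hσ, hν, rfl⟩ :=
    Lowering.P6.exists_pow_mul_inertia_mul V hq hV hφ (IntermediateField.normalClosure ℚ F LL) hτ
  have hφD : φ ∈ Dec V := ((Frobenius.isFrobeniusAt_iff V φ q).1 hφ).1
  have hσD : σ ∈ Dec V := Places.inertia_le_decomposition V hσ
  have hνD : ν ∈ Dec V := by
    have := mul_mem (mul_mem (inv_mem (pow_mem hφD i)) hτ) (inv_mem hσD)
    simpa [mul_assoc] using this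
  have hpow : ∀ i : ℕ, P (φ ^ i) := fun i => by
    induction i with
    | zero => rwa [pow_zero]
    | succ i ih => rw [pow_succ]; exact hmul _ (pow_mem hφD i) _ hφD ih hφP
  exact hmul _ (mul_mem (pow_mem hφD i) hνD) _ hσD
    (hmul _ (pow_mem hφD i) _ hνD (hpow i) (hF ν hνD fun x hx =>
      (IntermediateField.mem_fixingSubgroup_iff _ ν).1 hν x
        (F.le_normalClosure hx))) (hI σ hσ)

/-! ### The derivative of the lift -/

variable {O : Type} [CommRing O] [IsDomain O] [IsDiscreteValuationRing O]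
  {p : ℕ} [Fact p.Prime] [Algebra (ZMod p) (ResidueField O)]
  {D : Datum p (ResidueField O)} {S : Finset Nat.Primes} (L : LevelRep D S)

/-- The residual matrix. -/
abbrev rbM (D : Datum p (ResidueField O)) (σ : GG) : M2 (ResidueField O) :=
  (D.rb σ : M2 (ResidueField O))

/-- The derivative of the lift. -/
def drv (d : L.R → ResidueField O) (σ : GG) : M2 (ResidueField O) := (L.ρ σ : M2 L.R).map d

theorem dCoch_mulVec {d : L.R → ResidueField O} {V : VS} {z : ↥(Dec V) → W (ResidueField O)}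
    (hz : L.IsCochain V d z) (σ : ↥(Dec V)) (v : Fin 2 → ResidueField O) :
    Matrix.mulVec (z σ).1 (Matrix.mulVec (rbM D (σ : GG)) v) = (drv L d (σ : GG)).mulVec v := by
  rw [hz σ, Matrix.mulVec_mulVec, LevelRep.dCoch, mul_assoc, ← Units.val_mul, inv_mul_cancel,
    Units.val_one, mul_one]
  rfl

/-- A stable line over the dual numbers. -/
def Str (d : L.R → ResidueField O) (v₀ v₁ : Fin 2 → ResidueField O) (σ : GG)
    (x y : ResidueField O) : Prop :=
  (drv L d σ).mulVec v₀ + (rbM D σ).mulVec v₁ = x • v₁ + y • v₀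

variable {L} {d : L.R → ResidueField O} (hd : d ∈ tanSp L.red)
include hd

theorem det_congr {σ : GG} {c : ℕ} (hc : DetCyclo.CycloExponent p 1 σ c) :
    (rbM D σ).det = c ∧ d (L.ρ σ : M2 L.R).det = 0 := by
  have h := L.det_cyclotomic 1 σ c hc
  rw [pow_one] at h
  obtain ⟨h1, h2⟩ := Glue.red_d_of_mem_span (p := p) hd (a := c) (by simpa using h)
  refine ⟨?_, h2⟩
  rw [rbM, ← L.red_rho σ, ← h1]
  exact (RingHom.map_det L.red.toRingHom _).symm

theorem d_det_rho (σ : GG) : d (L.ρ σ : M2 L.R).det = 0 :=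
  (det_congr hd (c := (om p σ).val) fun μ hμ => Glue.apply_of_pow_eq_one σ μ hμ).2

theorem drv_mul (σ τ : GG) :
    drv L d (σ * τ) = rbM D σ * drv L d τ + drv L d σ * rbM D τ := by
  simp only [drv, rbM, map_mul, Units.val_mul]
  rw [Glue.d_matrix_mul hd, L.red_rho, L.red_rho]

theorem drv_one : drv L d 1 = 0 := by
  ext i j
  simp only [drv, map_one, Units.val_one, Matrix.map_apply, Matrix.one_apply, Matrix.zero_apply]
  split_ifs
  · exact Glue.d_one hd
  · exact Glue.d_zero hd

/-- The derivative is trivial on an open subgroup. -/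
theorem exists_trivial : ∃ F : IntermediateField ℚ LL, FiniteDimensional ℚ F ∧
    ∀ ν : GG, (∀ x ∈ F, ν x = x) → rbM D ν = 1 ∧ drv L d ν = 0 := by
  obtain ⟨F, hF, h⟩ := L.continuous 1
  refine ⟨F, hF, fun ν hν => ?_⟩
  have key : ∀ i j, L.red ((L.ρ ν : M2 L.R) i j) = (1 : M2 (ResidueField O)) i j ∧
      d ((L.ρ ν : M2 L.R) i j) = 0 := fun i j => by
    have h1 := h ν hν i j
    rw [pow_one, Matrix.one_apply] at h1
    rw [Matrix.one_apply]
    split_ifs at h1 ⊢
    · simpa using Glue.red_d_of_mem_span (p := p) hd (a := 1) (by simpa using h1)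
    · simpa using Glue.red_d_of_mem_span (p := p) hd (a := 0) (by simpa using h1)
  exact ⟨by rw [rbM, ← L.red_rho]; exact Matrix.ext fun i j => (key i j).1,
    Matrix.ext fun i j => (key i j).2⟩

/-- Stable lines compose. -/
theorem Str.mul {v₀ v₁ : Fin 2 → ResidueField O} {σ τ : GG} {x x' y y' : ResidueField O}
    (hx : (rbM D σ).mulVec v₀ = x • v₀) (hx' : (rbM D τ).mulVec v₀ = x' • v₀)
    (h : Str L d v₀ v₁ σ x y) (h' : Str L d v₀ v₁ τ x' y') :
    (rbM D (σ * τ)).mulVec v₀ = (x * x') • v₀ ∧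
      Str L d v₀ v₁ (σ * τ) (x * x') (x * y' + y * x') := by
  have hm : rbM D (σ * τ) = rbM D σ * rbM D τ := by simp [rbM]
  refine ⟨by rw [hm, ← Matrix.mulVec_mulVec, hx', Matrix.mulVec_smul, hx, smul_smul, mul_comm], ?_⟩
  unfold Str at h h' ⊢
  rw [drv_mul hd, hm, Matrix.add_mulVec, ← Matrix.mulVec_mulVec, ← Matrix.mulVec_mulVec,
    ← Matrix.mulVec_mulVec, hx', Matrix.mulVec_smul, add_right_comm, ← Matrix.mulVec_add, h',
    Matrix.mulVec_add, Matrix.mulVec_smul, Matrix.mulVec_smul, hx]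
  have h1 := eq_sub_of_add_eq' h
  rw [h1]
  funext i
  simp only [Pi.add_apply, Pi.sub_apply, Pi.smul_apply, smul_eq_mul]
  ring

/-- Whatever fixes the residual representation and kills the derivative. -/
theorem Str.of_trivial {v₀ v₁ : Fin 2 → ResidueField O} {ν : GG} (h1 : rbM D ν = 1)
    (h0 : drv L d ν = 0) : (rbM D ν).mulVec v₀ = (1 : ResidueField O) • v₀ ∧
      Str L d v₀ v₁ ν 1 0 := by
  refine ⟨by rw [h1, Matrix.one_mulVec, one_smul], ?_⟩
  rw [Str, h1, h0, Matrix.zero_mulVec, zero_add, Matrix.one_mulVec, one_smul, zero_smul, add_zero]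

/-- A stable line with character fixed on a generating set has it everywhere. -/
theorem str_everywhere {q : ℕ} (hq : q.Prime) {V : VS} (hV : V.LiesOverPrime q) {φ : GG}
    (hφ : V.IsFrobeniusAt φ q) {v₀ v₁ : Fin 2 → ResidueField O}
    (hgen : ∀ σ : GG, σ = φ ∨ σ ∈ V.inertiaSubgroupIn ℚ →
      ∃ x, (rbM D σ).mulVec v₀ = x • v₀ ∧ Str L d v₀ v₁ σ x 0) :
    ∀ σ ∈ Dec V, ∃ x, (rbM D σ).mulVec v₀ = x • v₀ ∧ Str L d v₀ v₁ σ x 0 := by
  obtain ⟨F, hF, htriv⟩ := exists_trivial hd
  haveI := hF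
  have hI1 : (1 : GG) ∈ V.inertiaSubgroupIn ℚ := one_mem _
  refine dec_induction hq hV hφ (F := F) (hgen 1 (Or.inr hI1)) ?_ (hgen φ (Or.inl rfl))
    (fun σ hσ => hgen σ (Or.inr hσ)) fun ν _ hν =>
      ⟨1, Str.of_trivial hd (htriv ν hν).1 (htriv ν hν).2⟩
  rintro a - b - ⟨x, hx, h⟩ ⟨x', hx', h'⟩
  obtain ⟨h1, h2⟩ := Str.mul hd hx hx' h h'
  exact ⟨x * x', h1, by simpa using h2⟩

/-- The derivative of the trace along a stable line. -/
theorem mul_d_trace {v₀ v₁ : Fin 2 → ResidueField O} (hv₀ : v₀ ≠ 0) {σ : GG}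
    {x y : ResidueField O} (hx : (rbM D σ).mulVec v₀ = x • v₀) (h : Str L d v₀ v₁ σ x y) :
    x * d (L.ρ σ : M2 L.R).trace = y * (2 * x - (rbM D σ).trace) := by
  have hroot := eigen_root hv₀ hx
  set m := rbM D σ
  set n := drv L d σ
  have hcay : m * n + n * m =
      m.trace • n + d (L.ρ σ : M2 L.R).trace • m := by
    have h1 := congrArg (fun X : M2 L.R => X.map d) (cayley_two (L.ρ σ : M2 L.R))
    rw [Glue.d_matrix_mul hd, L.red_rho] at h1
    rw [show m * n + n * m = _ from h1]
    ext i j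
    have ht : L.red (L.ρ σ : M2 L.R).trace = m.trace := by
      show _ = Matrix.trace (D.rb σ : M2 (ResidueField O))
      rw [← L.red_rho]
      exact AddMonoidHom.map_trace L.red.toRingHom.toAddMonoidHom _
    have hr : L.red ((L.ρ σ : M2 L.R) i j) = m i j := by
      show _ = (D.rb σ : M2 (ResidueField O)) i j
      rw [← L.red_rho]; rfl
    have hone : d ((L.ρ σ : M2 L.R).det * (1 : M2 L.R) i j) = 0 := by
      rw [hd.2.1, d_det_rho hd σ, mul_zero, Matrix.one_apply]
      split_ifs
      · rw [Glue.d_one hd, mul_zero, add_zero]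
      · rw [Glue.d_zero hd, mul_zero, add_zero]
    simp only [Matrix.map_apply, Matrix.sub_apply, Matrix.smul_apply, smul_eq_mul,
      Matrix.add_apply, Glue.d_sub hd, n, drv]
    rw [hone, sub_zero, hd.2.1, ht, hr]
    ring
  have hn : n.mulVec v₀ = x • v₁ + y • v₀ - m.mulVec v₁ := eq_sub_of_add_eq h
  have h2 := congrArg (fun X : M2 (ResidueField O) => X.mulVec v₀) hcay
  simp only [Matrix.add_mulVec, ← Matrix.mulVec_mulVec, Matrix.smul_mulVec, hx, hn,
    Matrix.mulVec_smul, Matrix.mulVec_sub, Matrix.mulVec_add, smul_add, smul_sub, smul_smul] at h2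
  have hsq : m.mulVec (m.mulVec v₁) = m.trace • m.mulVec v₁ - m.det • v₁ := by
    rw [Matrix.mulVec_mulVec, cayley_two m, Matrix.sub_mulVec, Matrix.smul_mulVec,
      Matrix.smul_mulVec, Matrix.one_mulVec]
  rw [hsq] at h2
  refine smul_left_cancel_vec hv₀ ?_
  funext i
  have h4 := congrFun h2 i
  simp only [Pi.add_apply, Pi.sub_apply, Pi.smul_apply, smul_eq_mul] at h4 ⊢
  linear_combination -h4 + v₁ i * hroot

end FLTAgent.ModLift.ClassAux
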