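import Fermat.Agent.ModLift.Tangent.Class.Spans
import Fermat.Agent.Lowering.P6.Tangent.Flat

/-!
# Flat classes at `p`

A module with the quadratic relation of a residually spanning representation is a module over all
matrices, so the lift attached to a tangent vector is a quotient of a subgroup of a power of a flat
piece.
-/

set_option autoImplicit false
set_option linter.unusedSectionVars false
set_option linter.style.haveILetI false

noncomputable section

open IsLocalRing

namespace FLTAgent.ModLift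

open FLTAgent.TWPrimes FLTAgent.PoitouTate FLTAgent.Lowering ClassAux
open FLTAgent.Lowering.P6.Tangent (Quad quad_matrix col col_mulVec flatI_pi)

local notation "GG" => (AlgebraicClosure ℚ ≃ₐ[ℚ] AlgebraicClosure ℚ)
local notation "VS" => ValuationSubring (AlgebraicClosure ℚ)
local notation "Dec" => ValuationSubring.decompositionSubgroup ℚ
local notation "M2" => Matrix (Fin 2) (Fin 2)

namespace ClassAux

variable {O : Type} [CommRing O] [IsDomain O] [IsDiscreteValuationRing O] [Finite (ResidueField O)]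
  {p : ℕ} [Fact p.Prime] [Algebra (ZMod p) (ResidueField O)]
  {D : Datum p (ResidueField O)} {S : Finset Nat.Primes} (L : LevelRep D S)

theorem trace_red (σ : GG) : L.red (L.ρ σ : M2 L.R).trace = (rbM D σ).trace := by
  rw [rbM, ← L.red_rho σ]
  exact AddMonoidHom.map_trace L.red.toRingHom.toAddMonoidHom _

theorem span_rho :
    Submodule.span L.R (Set.range ((Units.coeHom (M2 L.R)).comp L.ρ)) = ⊤ :=
  Deformation.span_range_eq_top (exists_residual_conj L.red
    ((Units.coeHom (M2 (ResidueField O))).comp D.rb) (span_rb D)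
    ((Units.coeHom (M2 L.R)).comp L.ρ) (trace_red L)).1

theorem isUnit_two : IsUnit (2 : L.R) := by
  rw [← IsLocalRing.notMem_maximalIdeal, ← red_eq_zero L.red, map_ofNat]
  exact TWPrimes.Local.two_ne_zero_coeff D.ne_two _

theorem exists_commutator_unit :
    ∃ g h : GG, IsUnit (trGL (L.ρ (g * h)) * trGL (L.ρ (g * h)) -
      trGL (L.ρ (g * h * (h * g))) - 2 * detGL (L.ρ (g * h))) := by
  obtain ⟨g, h, hgh⟩ := exists_commutator D
  refine ⟨g, h, ?_⟩
  rw [← IsLocalRing.notMem_maximalIdeal, ← red_eq_zero L.red]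
  have hdet : ∀ σ, L.red (detGL (L.ρ σ)) = detGL (D.rb σ) := fun σ => by
    rw [detGL, detGL, ← L.red_rho σ]
    exact RingHom.map_det L.red.toRingHom _
  have htr : ∀ σ, L.red (trGL (L.ρ σ)) = trGL (D.rb σ) := fun σ => trace_red L σ
  rw [map_sub, map_sub, map_mul L.red, map_mul L.red, map_ofNat, htr, htr, hdet]
  intro h0
  have hsq := (quad_matrix D.rb).comm_sq g h
  rw [h0, zero_smul] at hsq
  set C := ((Units.coeHom (M2 (ResidueField O))).comp D.rb) g *
    ((Units.coeHom (M2 (ResidueField O))).comp D.rb) h -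
    ((Units.coeHom (M2 (ResidueField O))).comp D.rb) h *
    ((Units.coeHom (M2 (ResidueField O))).comp D.rb) g with hC
  have hC0 : C.det = 0 := by
    have := congrArg Matrix.det hsq
    rw [Matrix.det_mul, Matrix.det_zero] at this
    exact mul_self_eq_zero.1 this
  set K : M2 (ResidueField O) := (D.rb (g * h * g⁻¹ * h⁻¹) : M2 (ResidueField O))
  have hfac : C = (K - 1) * (D.rb (h * g) : M2 (ResidueField O)) := by
    rw [sub_mul, one_mul, ← Units.val_mul, ← map_mul,
      show g * h * g⁻¹ * h⁻¹ * (h * g) = g * h by group, hC]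
    simp [map_mul]
  rw [hfac, Matrix.det_mul, mul_eq_zero] at hC0
  have hne : (D.rb (h * g) : M2 (ResidueField O)).det ≠ 0 :=
    (Matrix.isUnit_iff_isUnit_det _).1 (D.rb (h * g)).isUnit |>.ne_zero
  have hK : K.det = 1 := by
    show ((Matrix.GeneralLinearGroup.det.comp D.rb) (g * h * g⁻¹ * h⁻¹) : (ResidueField O)ˣ).1 = 1
    rw [map_mul, map_mul, map_mul, map_inv, map_inv,
      mul_comm (_ : (ResidueField O)ˣ) ((Matrix.GeneralLinearGroup.det.comp D.rb) h),
      mul_inv_cancel_right, mul_inv_cancel, Units.val_one]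
  have h1 := hC0.resolve_right hne
  rw [Matrix.det_fin_two] at h1 hK
  simp only [Matrix.sub_apply, Matrix.one_apply_eq,
    Matrix.one_apply_ne (show (0 : Fin 2) ≠ 1 by decide),
    Matrix.one_apply_ne (show (1 : Fin 2) ≠ 0 by decide), sub_zero] at h1
  refine hgh ?_
  show K.trace = 2
  rw [Matrix.trace_fin_two]
  linear_combination -h1 + hK

variable {L} {W : Type} [AddCommGroup W] [Module L.R W]

/-- An equivariant map of the plane into the functions on `W` with small kernel. -/
theorem exists_plane_map (actW : GG →* Module.End L.R W)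
    (hrel : ∀ (σ : GG) (w : W),
      actW σ (actW σ w) + detGL (L.ρ σ) • w = trGL (L.ρ σ) • actW σ w) :
    ∃ Φ : (Fin 2 → L.R) →ₗ[L.R] (W → W),
      (∀ σ x, Φ ((L.ρ σ : M2 L.R).mulVec x) = fun w => actW σ (Φ x w)) ∧
      ∀ x, Φ x = 0 → ∀ (i : Fin 2) (w : W), x i • w = 0 := by
  let r : GG →* M2 L.R := (Units.coeHom (M2 L.R)).comp L.ρ
  have hQ : Quad actW (fun g => trGL (L.ρ g)) fun g => detGL (L.ρ g) := by
    refine ⟨fun g => LinearMap.ext fun w => ?_, (quad_matrix L.ρ).det_mul, (quad_matrix L.ρ).tr_comm⟩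
    simpa using hrel g w
  obtain ⟨g₀, h₀, hu⟩ := exists_commutator_unit L
  let Lr : (GG →₀ L.R) →ₗ[L.R] M2 L.R := Finsupp.linearCombination L.R r
  let LB : (GG →₀ L.R) →ₗ[L.R] Module.End L.R W := Finsupp.linearCombination L.R actW
  have hker : LinearMap.ker Lr ≤ LinearMap.ker LB := fun c hc =>
    hQ.comb_eq_zero r (Matrix.traceLinearMap (Fin 2) L.R L.R) (fun g => rfl) (isUnit_two L)
      ⟨g₀, h₀, hu⟩ c hc
  have hsurj : Function.Surjective Lr := by
    rw [← LinearMap.range_eq_top, Finsupp.range_linearCombination]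
    exact span_rho L
  let Ψ : M2 L.R →ₗ[L.R] Module.End L.R W :=
    ((LinearMap.ker Lr).liftQ LB hker).comp (Lr.quotKerEquivOfSurjective hsurj).symm.toLinearMap
  have hΨ : ∀ g, Ψ (r g) = actW g := fun g => by
    have h1 : (Lr.quotKerEquivOfSurjective hsurj).symm (r g) =
        Submodule.Quotient.mk (Finsupp.single g 1) := by
      rw [LinearEquiv.symm_apply_eq]
      show r g = Lr (Finsupp.single g 1)
      simp [Lr]
    simp only [Ψ, LinearMap.comp_apply, LinearEquiv.coe_coe, h1]
    show LB (Finsupp.single g 1) = _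
    simp [LB]
  have hone : Ψ 1 = 1 := by simpa using hΨ 1
  have hm : ∀ x y, Ψ (x * y) = Ψ x * Ψ y := fun x y => by
    have hx : x ∈ Submodule.span L.R (Set.range r) := span_rho L ▸ Submodule.mem_top
    induction hx using Submodule.span_induction with
    | mem _ hx =>
      obtain ⟨g, rfl⟩ := hx
      have hy : y ∈ Submodule.span L.R (Set.range r) := span_rho L ▸ Submodule.mem_top
      induction hy using Submodule.span_induction with
      | mem _ hy => obtain ⟨h, rfl⟩ := hy; rw [← map_mul, hΨ, hΨ, hΨ, map_mul]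
      | zero => simp
      | add u v _ _ hu hv => simp [mul_add, hu, hv]
      | smul a u _ hu => simp [hu]
    | zero => simp
    | add u v _ _ hu hv => simp [add_mul, hu, hv]
    | smul a u _ hu => simp [hu]
  refine ⟨LinearMap.ltoFun L.R W W L.R ∘ₗ Ψ ∘ₗ col, fun σ x => funext fun w => ?_, fun x hx i w => ?_⟩
  · show Ψ (col _) w = actW σ (Ψ (col x) w)
    rw [col_mulVec, hm, show Ψ (L.ρ σ : M2 L.R) = actW σ from hΨ σ]
    rfl
  · have h0 : Ψ (col x) = 0 := LinearMap.ext fun w => congrFun hx w
    have e00 : Ψ (Matrix.single (0 : Fin 2) (0 : Fin 2) (x i)) = 0 := by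
      rw [show Matrix.single (0 : Fin 2) (0 : Fin 2) (x i) = Matrix.single 0 i (1 : L.R) * col x by
        ext a b
        fin_cases a <;> fin_cases b <;> fin_cases i <;> simp [col, Matrix.mul_apply],
        hm, h0, mul_zero]
    have e11 : Ψ (Matrix.single (1 : Fin 2) (1 : Fin 2) (x i)) = 0 := by
      rw [show Matrix.single (1 : Fin 2) (1 : Fin 2) (x i) =
          Matrix.single 1 0 (1 : L.R) * Matrix.single 0 0 (x i) * Matrix.single 0 1 (1 : L.R) by
        simp, hm, hm, e00, mul_zero, zero_mul]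
    have e : x i • (1 : M2 L.R) = Matrix.single (0 : Fin 2) (0 : Fin 2) (x i) +
        Matrix.single (1 : Fin 2) (1 : Fin 2) (x i) := by
      ext a b
      fin_cases a <;> fin_cases b <;> simp
    have := congrArg (fun f : Module.End L.R W => f w) ((map_smul Ψ (x i) 1).symm.trans
      ((congrArg Ψ e).trans ((map_add Ψ _ _).trans (by rw [e00, e11, add_zero]))))
    simpa [hone] using this

variable {V : VS} [Finite W] {actW : GG →* Module.End L.R W}
  (hrel : ∀ (σ : GG) (w : W),
    actW σ (actW σ w) + Matrix.det (L.ρ σ : M2 L.R) • w =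
      Matrix.trace (L.ρ σ : M2 L.R) • actW σ w)
  (hann : ∀ t : L.R, (∀ w : W, t • w = 0) → t ∈ Ideal.span {(p : L.R)})
  (hflat : FlatLocal.FlatI V fun σ : ↥(Dec V) => actW (σ : GG))
include hrel hann hflat

/-- Quotients of the plane over the algebra by maps killing `p` are flat. -/
theorem flatI_of_plane (hP : V.LiesOverPrime p) {U : Type} [AddCommGroup U]
    [Module (ResidueField O) U] (actU : ↥(Dec V) → Module.End (ResidueField O) U)
    (φ : (Fin 2 → L.R) →+ U) (hφ : Function.Surjective φ)
    (hker : ∀ x, (∀ i, x i ∈ Ideal.span {(p : L.R)}) → φ x = 0)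
    (heq : ∀ (σ : ↥(Dec V)) x, φ ((L.ρ (σ : GG) : M2 L.R).mulVec x) = actU σ (φ x)) :
    FlatLocal.FlatI V actU := by
  obtain ⟨Φ, hΦ, hΦ0⟩ := exists_plane_map actW hrel
  have hflat' : FlatLocal.FlatI V fun σ : ↥(Dec V) =>
      ((actW (σ : GG)).toAddMonoidHom : AddMonoid.End W) :=
    hflat.congr (AddEquiv.refl W) fun σ _ w => rfl
  let F : (Fin 2 → L.R) →+ (W → W) := Φ.toAddMonoidHom
  let actV : ↥(Dec V) → AddMonoid.End F.range := fun σ =>
    ((((actW (σ : GG)).toAddMonoidHom).compLeft W).comp F.range.subtype).codRestrict F.range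
      fun f => by
        obtain ⟨x, hx⟩ := f.2
        exact ⟨_, (hΦ σ x).trans (funext fun w => by
          show actW (σ : GG) (Φ x w) = actW (σ : GG) ((f : W → W) w)
          rw [← hx]; rfl)⟩
  have hV : FlatLocal.FlatI V actV := (flatI_pi hflat' W).restrict F.range.subtype
    Subtype.val_injective fun σ _ f => rfl
  have hFs : Function.Surjective F.rangeRestrict := F.rangeRestrict_surjective
  have hle : F.rangeRestrict.ker ≤ φ.ker := fun x hx => by
    rw [AddMonoidHom.ker_rangeRestrict, AddMonoidHom.mem_ker] at hx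
    exact hker x fun i => hann _ (hΦ0 x hx i)
  let π : F.range →+ U := F.rangeRestrict.liftOfSurjective hFs ⟨φ, hle⟩
  have hπ : ∀ x, π (F.rangeRestrict x) = φ x := fun x =>
    AddMonoidHom.liftOfRightInverse_comp_apply _ _ _ ⟨φ, hle⟩ x
  refine FlatLocal.FlatI.quotient (p := p) hP hV π (fun u => ?_) fun σ _ f => ?_
  · obtain ⟨x, rfl⟩ := hφ u
    exact ⟨_, hπ x⟩
  · obtain ⟨x, rfl⟩ := hFs f
    rw [hπ, ← heq, ← hπ]
    exact congrArg π (Subtype.ext (hΦ σ x).symm)

end ClassAux

theorem targetFlatClass : TargetFlatClass := by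
  intro O _ _ _ _ p _ _ _ D S L V hV hflat d hd z hz
  obtain ⟨s, h⟩ := hflat
  obtain ⟨W, iW1, iW2, iW3, actW, -, hrel, hann, hfl⟩ := h (s + 1)
  have hann' : ∀ t : L.R, (∀ w : W, t • w = 0) → t ∈ Ideal.span {(p : L.R)} :=
    fun t ht => by simpa using hann t ht
  have hredp : ∀ y ∈ Ideal.span {(p : L.R)}, L.red y = 0 ∧ d y = 0 := fun y hy => by
    simpa using Glue.red_d_of_mem_span (p := p) hd (x := y) (a := 0) (by simpa using hy)
  have hrv : ∀ (σ : GG) (x : Fin 2 → L.R), (fun i => L.red ((L.ρ σ : M2 L.R).mulVec x i)) =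
      (rbM D σ).mulVec fun i => L.red (x i) := fun σ x => by
    rw [rbM, ← L.red_rho]
    funext i
    exact RingHom.map_mulVec L.red.toRingHom _ x i
  by_cases hne : d = 0
  · -- the lift is the sum of two copies of the residual representation
    subst hne
    let a : ↥(Dec V) → Module.End (ResidueField O) (Fin 2 → ResidueField O) := fun σ =>
      (rbM D (σ : GG)).mulVecLin
    have h0 : FlatLocal.FlatI V a := by
      refine flatI_of_plane hrel hann' hfl hV a
        ((L.red : L.R →+ ResidueField O).compLeft (Fin 2)) (fun v => ?_)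
        (fun x hx => funext fun i => (hredp _ (hx i)).1) fun σ x => hrv σ x
      choose y hy using fun i => red_surj L.red (v i)
      exact ⟨y, funext hy⟩
    refine FlatLocal.FlatI.prod h0 h0 (actC D V z) fun σ _ x => ?_
    have hz0 : (z σ).1 = 0 := by
      rw [hz σ]
      show (L.ρ (σ : GG) : M2 L.R).map (fun _ => (0 : ResidueField O)) * _ = 0
      rw [show (L.ρ (σ : GG) : M2 L.R).map (fun _ => (0 : ResidueField O)) = 0 by ext; rfl,
        zero_mul]
    show ((rbM D (σ : GG)).mulVec x.1, (rbM D (σ : GG)).mulVec x.2 +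
      ((z σ).1 * rbM D (σ : GG)).mulVec x.1) = _
    rw [hz0, zero_mul, Matrix.zero_mulVec, add_zero]
    rfl
  let φ : (Fin 2 → L.R) →+ (Fin 2 → ResidueField O) × (Fin 2 → ResidueField O) :=
    ((L.red : L.R →+ ResidueField O).compLeft _).prod ((AddMonoidHom.mk' d hd.1).compLeft _)
  refine flatI_of_plane hrel hann' hfl hV _ φ (fun v => ?_) (fun x hx => ?_) fun σ x => ?_
  · obtain ⟨y, hy⟩ : ∃ y, d y ≠ 0 := Function.ne_iff.1 hne
    obtain ⟨a, ha⟩ := residue_surjective (L.red y)
    set y' := y - algebraMap O L.R a with hy'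
    have hr : L.red y' = 0 := by
      rw [hy', map_sub, L.red.commutes, IsLocalRing.ResidueField.algebraMap_eq, ha, sub_self]
    have hd' : d y' = d y := by rw [hy', Glue.d_sub hd, hd.2.2, sub_zero]
    have hsurj : ∀ u w : ResidueField O, ∃ x, L.red x = u ∧ d x = w := by
      intro u w
      obtain ⟨o, ho⟩ := residue_surjective u
      obtain ⟨t, ht⟩ := residue_surjective (w / d y)
      refine ⟨algebraMap O L.R o + algebraMap O L.R t * y', ?_, ?_⟩
      · rw [map_add, map_mul, hr, mul_zero, add_zero, L.red.commutes,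
          IsLocalRing.ResidueField.algebraMap_eq, ho]
      · rw [hd.1, hd.2.1, hd.2.2, hd.2.2, L.red.commutes,
          IsLocalRing.ResidueField.algebraMap_eq, ht, hd', mul_zero, zero_add, add_zero,
          div_mul_cancel₀ _ hy]
    choose x hx1 hx2 using fun i => hsurj (v.1 i) (v.2 i)
    exact ⟨x, Prod.ext (funext hx1) (funext hx2)⟩
  · exact Prod.ext (funext fun i => (hredp _ (hx i)).1) (funext fun i => (hredp _ (hx i)).2)
  · refine Prod.ext (hrv σ x) ?_
    show (fun i => d ((L.ρ (σ : GG) : M2 L.R).mulVec x i)) =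
      (rbM D (σ : GG)).mulVec (fun i => d (x i)) +
        ((z σ).1 * rbM D (σ : GG)).mulVec fun i => L.red (x i)
    rw [← Matrix.mulVec_mulVec, dCoch_mulVec L hz σ, Glue.d_mulVec hd, L.red_rho]
    rfl

end FLTAgent.ModLift
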