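import Fermat.Agent.ModLift.Tangent.Class.Basic
import Fermat.Agent.Ordinary.Main
import Fermat.Agent.TWPrimes.Group.Bridge

/-!
# Ordinary and strictly ordinary classes at `p`

The identity on inertia makes the residual line stable over the dual numbers, with the cyclotomic
character on inertia; the unit root equation at a Frobenius element fixes the character.
-/

set_option autoImplicit false
set_option linter.unusedSectionVars false
set_option linter.style.haveILetI false

noncomputable section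

open IsLocalRing
open scoped Pointwise

namespace FLTAgent.ModLift

open FLTAgent.TWPrimes FLTAgent.PoitouTate ClassAux

local notation "GG" => (AlgebraicClosure ℚ ≃ₐ[ℚ] AlgebraicClosure ℚ)
local notation "M2" => Matrix (Fin 2) (Fin 2)

theorem targetOrdinaryClass : TargetOrdinaryClass := by
  intro O _ _ _ _ p _ _ _ D S L V hV hid v₀ x hv₀ hx hxI d hd z hz
  have hp : p.Prime := Fact.out
  have hp3 : 3 ≤ p := by have := hp.two_le; have := D.ne_two; omega
  have hID := Places.inertia_le_decomposition V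
  -- the inertial character
  set w : GG → ResidueField O := fun σ => algebraMap (ZMod p) (ResidueField O) (om p σ) with hw
  have hdet : ∀ σ : GG, (rbM D σ).det = w σ := fun σ => D.det_cyclo σ
  have heig : ∀ σ ∈ V.inertiaSubgroupIn ℚ, (rbM D σ).mulVec v₀ = w σ • v₀ := fun σ hσ => by
    rw [show w σ = x ⟨σ, hID hσ⟩ from (hxI ⟨σ, hID hσ⟩ hσ).symm]
    exact hx ⟨σ, hID hσ⟩
  have hres : ∀ σ ∈ V.inertiaSubgroupIn ℚ, ∀ τ ∈ V.inertiaSubgroupIn ℚ,
      (rbM D σ - w σ • 1) * (rbM D τ - 1) = 0 ∧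
      (rbM D σ - w σ • 1) * drv L d τ + drv L d σ * (rbM D τ - 1) = 0 := by
    intro σ hσ τ hτ
    have h := hid σ hσ τ hτ
    have hdet1 : L.red (L.ρ σ : M2 L.R).det = w σ := by
      rw [← hdet σ, rbM, ← L.red_rho]
      exact RingHom.map_det L.red.toRingHom _
    have hredA : ((L.ρ σ : M2 L.R) - (L.ρ σ : M2 L.R).det • 1).map L.red = rbM D σ - w σ • 1 := by
      rw [rbM, ← L.red_rho, ← hdet1]
      ext i j
      simp [Matrix.one_apply, apply_ite L.red]
    have hredB : ((L.ρ τ : M2 L.R) - 1).map L.red = rbM D τ - 1 := by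
      rw [rbM, ← L.red_rho]
      ext i j
      simp [Matrix.one_apply, apply_ite L.red]
    have hdA : ((L.ρ σ : M2 L.R) - (L.ρ σ : M2 L.R).det • 1).map d = drv L d σ := by
      ext i j
      simp only [Matrix.map_apply, Matrix.sub_apply, Matrix.smul_apply, smul_eq_mul,
        Glue.d_sub hd, hd.2.1, d_det_rho hd, Matrix.one_apply, drv]
      split_ifs <;> simp [Glue.d_one hd, Glue.d_zero hd]
    have hdB : ((L.ρ τ : M2 L.R) - 1).map d = drv L d τ := by
      ext i j
      simp only [Matrix.map_apply, Matrix.sub_apply, Glue.d_sub hd, Matrix.one_apply, drv]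
      split_ifs <;> simp [Glue.d_one hd, Glue.d_zero hd]
    constructor
    · have h1 := congrArg (fun X : M2 L.R => X.map L.red) h
      simp only [Matrix.map_mul, hredA, hredB] at h1
      rw [h1]
      ext i j
      simp
    · have h1 := congrArg (fun X : M2 L.R => X.map d) h
      rw [Glue.d_matrix_mul hd, hredA, hredB, hdA, hdB] at h1
      rw [h1]
      ext i j
      simp [Glue.d_zero hd]
  -- an element moving the roots of unity
  obtain ⟨σ₀, hσ₀, hmove⟩ := Ordinary.exists_inertia_move_odd hp3 hV (zeta_spec p)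
  have hw0 : w σ₀ ≠ 1 := fun h => hmove <| by
    have h1 : om p σ₀ = 1 := (algebraMap (ZMod p) (ResidueField O)).injective (h.trans (map_one _).symm)
    have h2 := Glue.apply_of_pow_eq_one (p := p) σ₀ (zeta p) (by rw [pow_one]; exact (zeta_spec p).pow_eq_one)
    rwa [h1, ZMod.val_one, pow_one] at h2
  have hwne : ∀ σ, w σ ≠ 0 := fun σ => by
    simp only [hw]
    exact (map_ne_zero _).2 (PoitouTate.om_ne_zero σ)
  set A := rbM D σ₀ with hA
  set dA := drv L d σ₀ with hdA
  set M : M2 (ResidueField O) := A - 1 with hM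
  set M' : M2 (ResidueField O) := A - w σ₀ • 1 with hM'
  have hAv : A.mulVec v₀ = w σ₀ • v₀ := heig σ₀ hσ₀
  have hM'v : M'.mulVec v₀ = 0 := by
    rw [hM', Matrix.sub_mulVec, hAv, Matrix.smul_mulVec, Matrix.one_mulVec, sub_self]
  have hMv : M.mulVec v₀ = (w σ₀ - 1) • v₀ := by
    rw [hM, Matrix.sub_mulVec, hAv, Matrix.one_mulVec, sub_smul, one_smul]
  have hM0 : M ≠ 0 := fun h => by
    rw [h, Matrix.zero_mulVec] at hMv
    exact (smul_ne_zero (sub_ne_zero.2 hw0) hv₀) hMv.symm
  have hM'0 : M' ≠ 0 := fun h => by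
    have h1 := hdet σ₀
    rw [show rbM D σ₀ = w σ₀ • 1 from sub_eq_zero.1 h, Matrix.det_smul, Matrix.det_one, mul_one,
      Fintype.card_fin, sq] at h1
    exact hw0 ((mul_eq_left₀ (hwne σ₀)).1 h1)
  have hMM : M * M' = 0 := by
    rw [← (hres σ₀ hσ₀ σ₀ hσ₀).1]
    simp only [hM, hM', ← hA, sub_mul, mul_sub, Matrix.smul_mul, Matrix.mul_smul, one_mul, mul_one]
    abel
  have hdAv : M.mulVec (dA.mulVec v₀) = 0 := by
    have h1 := congrArg (fun X : M2 (ResidueField O) => X.mulVec v₀) (hres σ₀ hσ₀ σ₀ hσ₀).2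
    simp only [← hA, ← hdA, Matrix.add_mulVec, ← Matrix.mulVec_mulVec, Matrix.zero_mulVec] at h1
    rw [← hM, hMv, Matrix.mulVec_smul] at h1
    rw [← h1]
    simp only [hM, Matrix.sub_mulVec, Matrix.smul_mulVec, Matrix.one_mulVec, sub_smul, one_smul]
    abel
  obtain ⟨u, hu⟩ := exists_preimage hMM hM0 hM'0 hdAv
  set v₁ := -u with hv₁
  have hdA₁ : dA.mulVec v₀ = w σ₀ • v₁ - A.mulVec v₁ := by
    rw [← hu, hM', hv₁, Matrix.sub_mulVec, Matrix.smul_mulVec, Matrix.one_mulVec,
      Matrix.mulVec_neg, smul_neg]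
    abel
  -- inertia keeps the line with character the cyclotomic one
  have hI : ∀ τ ∈ V.inertiaSubgroupIn ℚ, Str L d v₀ v₁ τ (w τ) 0 := by
    intro τ hτ
    have h1 := congrArg (fun X : M2 (ResidueField O) => X.mulVec v₀) (hres τ hτ σ₀ hσ₀).2
    simp only [← hA, ← hdA, Matrix.add_mulVec, ← Matrix.mulVec_mulVec, Matrix.zero_mulVec] at h1
    rw [← hM, hMv, Matrix.mulVec_smul, hdA₁] at h1
    have h2 := congrArg (fun X : M2 (ResidueField O) => X.mulVec v₁) (hres τ hτ σ₀ hσ₀).1
    simp only [← hA, ← Matrix.mulVec_mulVec, Matrix.zero_mulVec] at h2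
    simp only [Matrix.sub_mulVec, Matrix.mulVec_sub, Matrix.smul_mulVec, Matrix.one_mulVec,
      Matrix.mulVec_smul, smul_sub] at h1 h2
    refine smul_right_injective _ (sub_ne_zero.2 hw0) ?_
    funext i
    have e1 := congrFun h1 i
    have e2 := congrFun h2 i
    simp only [Pi.add_apply, Pi.sub_apply, Pi.smul_apply, smul_eq_mul, Pi.zero_apply] at e1 e2 ⊢
    linear_combination e1 + e2
  have hA0 : Str L d v₀ v₁ σ₀ (w σ₀) 0 := hI σ₀ hσ₀
  -- the decomposition group keeps the line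
  have hxσ : ∀ σ : ↥(ValuationSubring.decompositionSubgroup ℚ V), x σ ≠ 0 := fun σ h => by
    have h1 := hx σ
    rw [h, zero_smul] at h1
    exact hv₀ (Matrix.mulVec_injective_iff_isUnit.2 (D.rb (σ : GG)).isUnit
      (h1.trans (Matrix.mulVec_zero _).symm))
  have hline : ∀ σ : ↥(ValuationSubring.decompositionSubgroup ℚ V),
      ∃ y, Str L d v₀ v₁ (σ : GG) (x σ) y ∧ ((σ : GG) ∈ V.inertiaSubgroupIn ℚ → y = 0) := by
    intro σ
    by_cases hσ : (σ : GG) ∈ V.inertiaSubgroupIn ℚ
    · refine ⟨0, ?_, fun _ => rfl⟩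
      rw [hxI σ hσ]
      exact hI _ hσ
    set τ : GG := (σ : GG)⁻¹ * σ₀ * σ with hτdef
    have hτ : τ ∈ V.inertiaSubgroupIn ℚ := by
      have h1 := Places.conj_mem_inertia V hσ₀ ((σ : GG)⁻¹)
      rwa [inv_inv, MulAction.mem_stabilizer_iff.1 (inv_mem σ.2)] at h1
    have hστ : σ₀ * (σ : GG) = (σ : GG) * τ := by rw [hτdef]; group
    have hm : rbM D σ₀ * rbM D (σ : GG) = rbM D (σ : GG) * rbM D τ := by
      simp only [rbM, ← Units.val_mul, ← map_mul, hστ]
    have hwτ : w τ = w σ₀ := by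
      have h1 := congrArg (fun X : M2 (ResidueField O) => X.mulVec v₀) hm
      simp only [← Matrix.mulVec_mulVec, heig τ hτ, ← hA] at h1
      rw [show (rbM D (σ : GG)).mulVec v₀ = _ from hx σ, Matrix.mulVec_smul, Matrix.mulVec_smul,
        show (rbM D (σ : GG)).mulVec v₀ = _ from hx σ, hAv, smul_smul, smul_smul] at h1
      exact (mul_right_cancel₀ (hxσ σ) ((mul_comm _ _).trans (smul_left_cancel_vec hv₀ h1))).symm
    set m := rbM D (σ : GG)
    set n := drv L d (σ : GG)
    set ww := n.mulVec v₀ + m.mulVec v₁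
    have hT : (drv L d τ).mulVec v₀ = w σ₀ • v₁ - (rbM D τ).mulVec v₁ := by
      have h1 := hI τ hτ
      rw [Str, hwτ, zero_smul, add_zero] at h1
      rw [← h1, add_sub_cancel_right]
    have h1 := congrArg (fun X : M2 (ResidueField O) => X.mulVec v₀)
      (show drv L d (σ₀ * (σ : GG)) = drv L d ((σ : GG) * τ) by rw [hστ])
    rw [drv_mul hd, drv_mul hd] at h1
    simp only [← hA, ← hdA, Matrix.add_mulVec, ← Matrix.mulVec_mulVec] at h1
    rw [show m.mulVec v₀ = _ from hx σ, heig τ hτ, hwτ, hT, Matrix.mulVec_smul,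
      Matrix.mulVec_smul, hdA₁, Matrix.mulVec_sub, Matrix.mulVec_smul] at h1
    have h2 := congrArg (fun X : M2 (ResidueField O) => X.mulVec v₁) hm
    simp only [← hA, ← Matrix.mulVec_mulVec] at h2
    have hk : M'.mulVec (ww - x σ • v₁) = 0 := by
      rw [hM', Matrix.sub_mulVec, Matrix.smul_mulVec, Matrix.one_mulVec, Matrix.mulVec_sub,
        Matrix.mulVec_smul, Matrix.mulVec_add]
      funext i
      have e1 := congrFun h1 i
      have e2 := congrFun h2 i
      simp only [Pi.add_apply, Pi.sub_apply, Pi.smul_apply, smul_eq_mul, Pi.zero_apply, ww] at e1 e2 ⊢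
      linear_combination e1 + e2
    obtain ⟨y, hy⟩ := exists_smul_of_kills hM'0 hv₀ hM'v hk
    exact ⟨y, eq_add_of_sub_eq' hy, fun h => absurd h hσ⟩
  choose y hy hy0 using hline
  refine ⟨⟨v₁, y, hy0, fun σ => ?_⟩, fun φ ε hφ heq => ?_⟩
  · rw [dCoch_mulVec L hz σ]
    exact hy σ
  -- the character at a Frobenius element
  have hyφ : y φ = 0 := by
    have hh := heq σ₀ hσ₀
    set T := (L.ρ (σ₀ * (φ : GG)) : M2 L.R).trace
    set B := (L.ρ (φ : GG) : M2 L.R)
    set A₀ := (L.ρ σ₀ : M2 L.R)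
    have htA : d A₀.trace = 0 := by
      have h1 := mul_d_trace hd hv₀ hAv hA0
      rw [zero_mul] at h1
      exact (mul_eq_zero.1 h1).resolve_left (hwne σ₀)
    have htr : d T = w σ₀ * d B.trace := by
      have h1 : d ((A₀ - A₀.det • 1) * (B - algebraMap O L.R ε • 1)).trace = 0 := by
        rw [Matrix.trace_fin_two, hd.1, hh 0 0, hh 1 1, add_zero]
      have h2 : ((A₀ - A₀.det • 1) * (B - algebraMap O L.R ε • 1)).trace =
          T - A₀.det * B.trace - algebraMap O L.R ε * A₀.trace +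
            2 * (algebraMap O L.R ε * A₀.det) := by
        simp only [T, map_mul, Units.val_mul, sub_mul, mul_sub, Matrix.smul_mul, Matrix.mul_smul,
          one_mul, mul_one, Matrix.trace_sub, Matrix.trace_smul, Matrix.trace_one, Fintype.card_fin,
          smul_eq_mul, A₀, B]
        push_cast
        ring
      rw [h2, hd.1, Glue.d_sub hd, Glue.d_sub hd, hd.2.1, hd.2.1, hd.2.1, hd.2.1, hd.2.2, htA,
        d_det_rho hd, show d (2 : L.R) = 0 from by simpa using Glue.d_natCast hd 2] at h1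
      rw [show L.red A₀.det = w σ₀ by
        rw [← hdet σ₀, rbM, ← L.red_rho]
        exact RingHom.map_det L.red.toRingHom _] at h1
      linear_combination h1
    obtain ⟨hxφ', hstr⟩ := Str.mul hd hAv (hx φ) hA0 (hy φ)
    have h1 := mul_d_trace hd hv₀ (hx φ) (hy φ)
    have h2 := mul_d_trace hd hv₀ hxφ' hstr
    have r1 := eigen_root hv₀ (show (rbM D (φ : GG)).mulVec v₀ = _ from hx φ)
    have r2 := eigen_root hv₀ hxφ'
    rw [show (rbM D (σ₀ * (φ : GG))).det = w σ₀ * (rbM D (φ : GG)).det by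
      rw [← hdet σ₀, ← Matrix.det_mul]; simp [rbM]] at r2
    rw [zero_mul, add_zero, htr] at h2
    change x φ * d B.trace = _ at h1
    set t := (rbM D (φ : GG)).trace
    set t' := (rbM D (σ₀ * (φ : GG))).trace
    set Δ := (rbM D (φ : GG)).det
    set a := w σ₀
    have hc : y φ * (a * t - t') = 0 := by
      refine (mul_eq_zero.1 (show a * (y φ * (a * t - t')) = 0 from ?_)).resolve_left (hwne σ₀)
      linear_combination a ^ 2 * h1 - h2
    have : y φ * Δ * (a * (a - 1)) = 0 := by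
      linear_combination (a * x φ) * hc + (a ^ 2 * y φ) * r1 - y φ * r2
    have hΔ : Δ ≠ 0 := by rw [show Δ = w (φ : GG) from hdet _]; exact hwne _
    rcases mul_eq_zero.1 this with h | h
    · exact (mul_eq_zero.1 h).resolve_right hΔ
    · exact absurd h (mul_ne_zero (hwne σ₀) (sub_ne_zero.2 hw0))
  refine ⟨v₁, fun σ => ?_⟩
  suffices hgen : ∀ τ : GG, τ = (φ : GG) ∨ τ ∈ V.inertiaSubgroupIn ℚ →
      ∃ c, (rbM D τ).mulVec v₀ = c • v₀ ∧ Str L d v₀ v₁ τ c 0 by
    obtain ⟨c, hc, hstr⟩ := str_everywhere hd hp hV hφ hgen (σ : GG) σ.2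
    rw [dCoch_mulVec L hz σ]
    obtain rfl : c = x σ := smul_left_cancel_vec hv₀ (hc.symm.trans (hx σ))
    rw [show (drv L d (σ : GG)).mulVec v₀ + _ = _ from hstr, zero_smul, add_zero]
  rintro τ (rfl | hτ)
  · exact ⟨x φ, hx φ, hyφ ▸ hy φ⟩
  · exact ⟨w τ, heig τ hτ, hI τ hτ⟩

end FLTAgent.ModLift
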