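import Fermat.Agent.ModLift.Tangent.Class.Special
import Fermat.Agent.ModLift.Tangent.Class.Ordinary
import Fermat.Agent.ModLift.Tangent.Class.Flat

/-!
# The local classes of tangent vectors
-/
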