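import Fermat.Agent.ModLift.Tangent.Class.Basic
import Fermat.Agent.ModLift.Modules.Spans
import Fermat.Agent.TWPrimes.Count.Pair
import Fermat.Agent.TWPrimes.Local.Basic

/-!
# The residual datum spans all matrices

An irreducible representation with an odd involution has a commutator of trace different from two.
-/

set_option autoImplicit false
set_option linter.unusedSectionVars false
set_option linter.style.haveILetI false

noncomputable section

namespace FLTAgent.ModLift.ClassAux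

open FLTAgent.TWPrimes FLTAgent.PoitouTate FLTAgent.Lowering

local notation "GG" => (AlgebraicClosure ℚ ≃ₐ[ℚ] AlgebraicClosure ℚ)
local notation "M2" => Matrix (Fin 2) (Fin 2)

variable {p : ℕ} [Fact p.Prime] {k : Type} [Field k] [Finite k] [Algebra (ZMod p) k]

theorem exists_commutator (D : Datum p k) :
    ∃ g h : GG, trGL (D.rb (g * h * g⁻¹ * h⁻¹)) ≠ 2 := by
  by_contra hcon
  push Not at hcon
  haveI := TWPrimes.Local.charP_local p k
  have h2 : (2 : k) ≠ 0 := TWPrimes.Local.two_ne_zero_coeff D.ne_two k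
  obtain ⟨c, hc⟩ := exists_isCC
  obtain ⟨-, hsq⟩ := trace_of_isCC D hc
  set C : M2 k := (D.rb c : M2 k) with hC
  have hdC : C.det = -1 := by rw [hC, D.det_cyclo, om_of_isCC p hc, map_neg, map_one]
  have hne : C - 1 ≠ 0 ∧ C + 1 ≠ 0 := by
    constructor <;> intro h
    · rw [sub_eq_zero.1 h, Matrix.det_one] at hdC
      exact h2 (by linear_combination hdC)
    · rw [eq_neg_of_add_eq_zero_left h, Matrix.det_neg, Matrix.det_one, Fintype.card_fin] at hdC
      exact h2 (by linear_combination hdC)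
  have hmm : (C - 1) * (C + 1) = 0 ∧ (C + 1) * (C - 1) = 0 := by
    constructor <;> simp only [sub_mul, mul_add, add_mul, mul_sub, mul_one, one_mul, hsq] <;> abel
  -- the eigenvectors
  have heig : ∀ M M' : M2 k, M ≠ 0 → M' * M = 0 → ∃ v : Fin 2 → k, v ≠ 0 ∧ M'.mulVec v = 0 := by
    intro M M' hM hMM
    obtain ⟨j, i, hij⟩ : ∃ j i, M i j ≠ 0 := by
      by_contra h
      push Not at h
      exact hM (Matrix.ext fun i j => h j i)
    refine ⟨M.mulVec (Pi.single j 1), fun h => hij ?_, by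
      rw [Matrix.mulVec_mulVec, hMM, Matrix.zero_mulVec]⟩
    simpa [Matrix.mulVec_single] using congrFun h i
  obtain ⟨e₁, he₁, hCe₁⟩ := heig (C + 1) (C - 1) hne.2 hmm.1
  obtain ⟨e₂, he₂, hCe₂⟩ := heig (C - 1) (C + 1) hne.1 hmm.2
  let St : (Fin 2 → k) → GG → Prop := fun v g => ∃ a : k, (D.rb g : M2 k).mulVec v = a • v
  have hstmul : ∀ v g h, St v g → St v h → St v (g * h) := by
    rintro v g h ⟨a, ha⟩ ⟨b, hb⟩
    exact ⟨b * a, by rw [map_mul, Units.val_mul, ← Matrix.mulVec_mulVec, hb, Matrix.mulVec_smul,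
      ha, smul_smul]⟩
  have hstinv : ∀ v, v ≠ 0 → ∀ g, St v g → St v g⁻¹ := by
    rintro v hv g ⟨a, ha⟩
    have h1 := congrArg (fun w => (D.rb g⁻¹ : M2 k).mulVec w) ha
    rw [Matrix.mulVec_mulVec, ← Units.val_mul, ← map_mul, inv_mul_cancel, map_one, Units.val_one,
      Matrix.one_mulVec, Matrix.mulVec_smul] at h1
    have ha0 : a ≠ 0 := fun h => hv (by rw [h1, h, zero_smul])
    exact ⟨a⁻¹, (eq_inv_smul_iff₀ ha0).2 h1.symm⟩
  have hor : ∀ h : GG, St e₁ h ∨ St e₂ h := by
    intro h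
    set H : M2 k := (D.rb h : M2 k) with hH
    set N : M2 k := C * H - H * C
    have hCe₁' : C.mulVec e₁ = e₁ := by
      rw [← sub_eq_zero, ← hCe₁, Matrix.sub_mulVec, Matrix.one_mulVec]
    have hCe₂' : C.mulVec e₂ = -e₂ := by
      rw [← add_eq_zero_iff_eq_neg, ← hCe₂, Matrix.add_mulVec, Matrix.one_mulVec]
    -- the commutator is singular
    have hdet : N.det = 0 := by
      set K : M2 k := (D.rb (c * h * c⁻¹ * h⁻¹) : M2 k)
      have hK : K.trace = 2 := hcon c h
      have hKd : K.det = 1 := by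
        show ((Matrix.GeneralLinearGroup.det.comp D.rb) (c * h * c⁻¹ * h⁻¹) : kˣ).1 = 1
        rw [map_mul, map_mul, map_mul, map_inv, map_inv,
          mul_comm (_ : kˣ) ((Matrix.GeneralLinearGroup.det.comp D.rb) h), mul_inv_cancel_right,
          mul_inv_cancel, Units.val_one]
      have hfac : N = (K - 1) * (H * C) := by
        have hKHC : K * (H * C) = C * H := by
          simp only [K, hH, hC, ← Units.val_mul, ← map_mul]
          rw [show c * h * c⁻¹ * h⁻¹ * (h * c) = c * h by group]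
        rw [sub_mul, one_mul, hKHC]
      rw [hfac, Matrix.det_mul]
      rw [Matrix.trace_fin_two] at hK
      rw [Matrix.det_fin_two] at hKd
      have : (K - 1).det = 0 := by
        simp [Matrix.det_fin_two]
        linear_combination hKd - hK
      rw [this, zero_mul]
    obtain ⟨w, hw, hNw⟩ := Matrix.exists_mulVec_eq_zero_iff.2 hdet
    by_contra hno
    push Not at hno
    obtain ⟨h1, h2'⟩ := hno
    -- images of the eigenvectors
    have hu1 : (C + 1).mulVec (N.mulVec e₁) = 0 := by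
      rw [show N.mulVec e₁ = (C - 1).mulVec (H.mulVec e₁) by
        simp only [N, Matrix.sub_mulVec, ← Matrix.mulVec_mulVec, hCe₁', Matrix.one_mulVec],
        Matrix.mulVec_mulVec, hmm.2, Matrix.zero_mulVec]
    have hu1' : N.mulVec e₁ ≠ 0 := fun h0 => h1 <| by
      rw [show N.mulVec e₁ = (C - 1).mulVec (H.mulVec e₁) by
        simp only [N, Matrix.sub_mulVec, ← Matrix.mulVec_mulVec, hCe₁', Matrix.one_mulVec]] at h0
      exact exists_smul_of_kills hne.1 he₁ hCe₁ h0
    have hu2 : N.mulVec e₂ = (C + 1).mulVec (H.mulVec e₂) := by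
      simp only [N, Matrix.sub_mulVec, Matrix.add_mulVec, ← Matrix.mulVec_mulVec, hCe₂',
        Matrix.mulVec_neg, Matrix.one_mulVec, sub_neg_eq_add]
    have hu2' : N.mulVec e₂ ≠ 0 := fun h0 => h2' <| by
      rw [hu2] at h0
      exact exists_smul_of_kills hne.2 he₂ hCe₂ h0
    obtain ⟨a, ha⟩ := exists_smul_of_kills hne.2 he₂ hCe₂ hu1
    obtain ⟨b, hb⟩ := exists_smul_of_kills hne.1 he₁ hCe₁ (show (C - 1).mulVec (N.mulVec e₂) = 0 by
      rw [hu2, Matrix.mulVec_mulVec, hmm.1, Matrix.zero_mulVec])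
    -- decompose the kernel vector
    obtain ⟨α, hα⟩ := exists_smul_of_kills hne.1 he₁ hCe₁
      (show (C - 1).mulVec ((C + 1).mulVec w) = 0 by
        rw [Matrix.mulVec_mulVec, hmm.1, Matrix.zero_mulVec])
    obtain ⟨β, hβ⟩ := exists_smul_of_kills hne.2 he₂ hCe₂
      (show (C + 1).mulVec ((C - 1).mulVec w) = 0 by
        rw [Matrix.mulVec_mulVec, hmm.2, Matrix.zero_mulVec])
    have hsum : (2 : k) • w = α • e₁ - β • e₂ := by
      rw [← hα, ← hβ, two_smul, Matrix.add_mulVec, Matrix.sub_mulVec, Matrix.one_mulVec]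
      abel
    have hz : (α * a) • e₂ = (β * b) • e₁ := by
      have h0 := congrArg N.mulVec hsum
      rw [Matrix.mulVec_smul, hNw, smul_zero, Matrix.mulVec_sub, Matrix.mulVec_smul,
        Matrix.mulVec_smul, ha, hb, smul_smul, smul_smul, eq_comm, sub_eq_zero] at h0
      exact h0
    have hz' := congrArg C.mulVec hz
    rw [Matrix.mulVec_smul, Matrix.mulVec_smul, hCe₁', hCe₂', smul_neg, hz, neg_eq_iff_add_eq_zero,
      ← two_smul k, smul_smul, smul_eq_zero, or_iff_left he₁, mul_eq_zero, or_iff_right h2,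
      mul_eq_zero] at hz'
    have hb0 : b ≠ 0 := fun h0 => hu2' (by rw [hb, h0, zero_smul])
    have hβ0 : β = 0 := hz'.resolve_right hb0
    rw [hβ0, zero_mul, zero_smul, smul_eq_zero, or_iff_left he₂, mul_eq_zero] at hz
    have ha0 : a ≠ 0 := fun h0 => hu1' (by rw [ha, h0, zero_smul])
    rw [hz.resolve_right ha0, hβ0, zero_smul, zero_smul, sub_self, smul_eq_zero] at hsum
    exact hw (hsum.resolve_left h2)
  obtain ⟨σ₁, hσ₁⟩ := D.irred e₁ he₁
  obtain ⟨σ₂, hσ₂⟩ := D.irred e₂ he₂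
  have h1 : St e₂ σ₁ := (hor σ₁).resolve_left fun ⟨a, ha⟩ => hσ₁ a ha
  have h2' : St e₁ σ₂ := (hor σ₂).resolve_right fun ⟨a, ha⟩ => hσ₂ a ha
  rcases hor (σ₁ * σ₂) with h | h
  · have := hstmul e₁ _ _ h (hstinv e₁ he₁ _ h2')
    rw [mul_inv_cancel_right] at this
    obtain ⟨a, ha⟩ := this
    exact hσ₁ a ha
  · have := hstmul e₂ _ _ (hstinv e₂ he₂ _ h1) h
    rw [inv_mul_cancel_left] at this
    obtain ⟨a, ha⟩ := this
    exact hσ₂ a ha

theorem span_rb (D : Datum p k) :
    Submodule.span k (Set.range fun g => (D.rb g : M2 k)) = ⊤ :=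
  span_of_commutator D.rb (exists_commutator D)

end FLTAgent.ModLift.ClassAux
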