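import Fermat.Agent.ModLift.Tangent.Class.Basic

/-!
# Special classes away from `p`

The two equations at inertia make the line of eigenvalue `ε q` stable over the dual numbers with
constant character.
-/

set_option autoImplicit false
set_option linter.unusedSectionVars false
set_option linter.style.haveILetI false

noncomputable section

open IsLocalRing

namespace FLTAgent.ModLift

open FLTAgent.TWPrimes FLTAgent.PoitouTate ClassAux

local notation "GG" => (AlgebraicClosure ℚ ≃ₐ[ℚ] AlgebraicClosure ℚ)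
local notation "M2" => Matrix (Fin 2) (Fin 2)

theorem targetSpecialClass : TargetSpecialClass := by
  intro O _ _ _ _ p _ _ _ D S L q V hqp hV hunr φ hφ hns ε v₀ hε hv₀ heig htr
  set e : ResidueField O := residue O ε
  have he : e ^ 2 = 1 := by rw [← map_pow, hε, map_one]
  set A : M2 (ResidueField O) := rbM D (φ : _) with hA
  have hres : ∀ σ ∈ ValuationSubring.decompositionSubgroup ℚ V, ∃ x : (ResidueField O),
      (rbM D σ).mulVec v₀ = x • v₀ := by
    obtain ⟨F, hF, hrb⟩ := D.level
    haveI := hF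
    refine dec_induction q.2 hV hφ (F := F) ⟨1, by simp [rbM]⟩ ?_ ⟨_, heig⟩ (fun σ hσ => ⟨1, by
      simp [rbM, hunr σ hσ]⟩) fun ν _ hν => ⟨1, by simp [rbM, hrb ν hν]⟩
    rintro a - b - ⟨x, hx⟩ ⟨x', hx'⟩
    exact ⟨x' * x, by simp [rbM, ← Matrix.mulVec_mulVec, show (D.rb b : M2 (ResidueField O)).mulVec v₀ = _ from hx',
      Matrix.mulVec_smul, show (D.rb a : M2 (ResidueField O)).mulVec v₀ = _ from hx, smul_smul]⟩
  choose x hx using fun σ : ↥(ValuationSubring.decompositionSubgroup ℚ V) => hres σ σ.2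
  refine ⟨x, hx, fun d hd hdt heqs z hz => ?_⟩
  set dA : M2 (ResidueField O) := drv L d (φ : _) with hdA
  have hcyc := DetCyclo.cycloExponent_frobenius (p := p) q.2 hqp hV hφ 1
  obtain ⟨hdet, -⟩ := det_congr hd hcyc
  -- the two residual factors
  set M : M2 (ResidueField O) := A - e • 1 with hM
  set M' : M2 (ResidueField O) := A - (e * (q : ℕ)) • 1 with hM'
  have hM0 : M ≠ 0 := fun h => hns e (sub_eq_zero.1 h)
  have hM'0 : M' ≠ 0 := fun h => hns _ (sub_eq_zero.1 h)
  have htrA : A.trace = e * (((q : ℕ) : (ResidueField O)) + 1) := htr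
  have hdetA : A.det = ((q : ℕ) : (ResidueField O)) := hdet
  have hMM : M * M' = 0 := by
    rw [hM, hM', sub_mul, mul_sub, mul_sub, Matrix.smul_mul, Matrix.smul_mul, one_mul, one_mul,
      Matrix.mul_smul, mul_one, smul_smul, cayley_two, htrA, hdetA]
    ext i j
    simp only [Matrix.sub_apply, Matrix.smul_apply, smul_eq_mul, Matrix.zero_apply]
    linear_combination (((q : ℕ) : (ResidueField O)) * (1 : M2 (ResidueField O)) i j) * he
  have hM'M : M' * M = 0 := by
    rw [← hMM, hM, hM']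
    simp only [sub_mul, mul_sub, Matrix.smul_mul, Matrix.mul_smul, one_mul, mul_one, smul_smul,
      mul_comm]
    abel
  have hAv : A.mulVec v₀ = (e * (q : ℕ)) • v₀ := heig
  have hM'v : M'.mulVec v₀ = 0 := by
    rw [hM', Matrix.sub_mulVec, hAv, Matrix.smul_mulVec, Matrix.one_mulVec, sub_self]
  -- the line
  have hdAv : M.mulVec (dA.mulVec v₀) = 0 := by
    have h1 := congrArg (fun X : M2 L.R => X.map d) (cayley_two (L.ρ (φ : _) : M2 L.R))
    rw [Glue.d_matrix_mul hd, L.red_rho] at h1
    have h2 : ((L.ρ (φ : _) : M2 L.R).trace • (L.ρ (φ : _) : M2 L.R) -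
        (L.ρ (φ : _) : M2 L.R).det • 1).map d = A.trace • dA := by
      ext i j
      have ht : L.red (L.ρ (φ : _) : M2 L.R).trace = A.trace := by
        show _ = Matrix.trace (D.rb (φ : _) : M2 (ResidueField O))
        rw [← L.red_rho]
        exact AddMonoidHom.map_trace L.red.toRingHom.toAddMonoidHom _
      simp only [Matrix.map_apply, Matrix.sub_apply, Matrix.smul_apply, smul_eq_mul,
        Glue.d_sub hd, hd.2.1, hdt, d_det_rho hd, ht, hdA, drv, mul_zero, add_zero, Matrix.one_apply]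
      split_ifs <;> simp [Glue.d_one hd, Glue.d_zero hd]
    have h3 := congrArg (fun X : M2 (ResidueField O) => X.mulVec v₀) (h1.trans h2)
    simp only [Matrix.add_mulVec, ← Matrix.mulVec_mulVec, Matrix.smul_mulVec] at h3
    change A.mulVec (dA.mulVec v₀) + dA.mulVec (A.mulVec v₀) = _ at h3
    rw [hAv, Matrix.mulVec_smul, htrA] at h3
    rw [hM, Matrix.sub_mulVec, Matrix.smul_mulVec, Matrix.one_mulVec]
    funext i
    have h4 := congrFun h3 i
    simp only [Pi.add_apply, Pi.sub_apply, Pi.smul_apply, smul_eq_mul, Pi.zero_apply] at h4 ⊢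
    linear_combination h4
  obtain ⟨u, hu⟩ := exists_preimage hMM hM0 hM'0 hdAv
  refine ⟨-u, fun σ => ?_⟩
  suffices hgen : ∀ τ : GG, τ = (φ : GG) ∨ τ ∈ V.inertiaSubgroupIn ℚ →
      ∃ x, (rbM D τ).mulVec v₀ = x • v₀ ∧ Str L d v₀ (-u) τ x 0 by
    obtain ⟨x', hx', hstr⟩ := str_everywhere hd q.2 hV hφ hgen (σ : _) σ.2
    rw [dCoch_mulVec L hz σ]
    obtain rfl : x' = x σ := smul_left_cancel_vec hv₀ (hx'.symm.trans (hx σ))
    rw [show (drv L d (σ : _)).mulVec v₀ + _ = _ from hstr, zero_smul, add_zero]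
  intro τ hτ
  rcases hτ with rfl | hτ
  · refine ⟨e * (q : ℕ), hAv, ?_⟩
    show dA.mulVec v₀ + A.mulVec (-u) = (e * ((q : ℕ) : (ResidueField O))) • (-u) + (0 : (ResidueField O)) • v₀
    rw [← hu, hM', Matrix.sub_mulVec, Matrix.smul_mulVec, Matrix.one_mulVec, Matrix.mulVec_neg,
      zero_smul, add_zero, smul_neg]
    abel
  · have h1 : rbM D τ = 1 := by simp [rbM, hunr τ hτ]
    refine ⟨1, by rw [h1, Matrix.one_mulVec, one_smul], ?_⟩
    have hN : drv L d τ * M = 0 := by
      ext i j
      have h2 := (heqs τ hτ i j).2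
      have hcol : ∀ c : Fin 2, L.red (((L.ρ τ : M2 L.R) - 1) i c) = 0 := fun c => by
        rw [Matrix.sub_apply, map_sub, show L.red ((L.ρ τ : M2 L.R) i c) = rbM D τ i c by
          show _ = (D.rb τ : M2 (ResidueField O)) i c
          rw [← L.red_rho]; rfl, h1]
        rw [Matrix.one_apply, Matrix.one_apply]
        split_ifs <;> simp
      simp only [Matrix.mul_apply, Fin.sum_univ_two, hd.1, hd.2.1, hcol, zero_mul, zero_add] at h2
      rw [Matrix.zero_apply, ← h2]
      simp only [Matrix.mul_apply, Fin.sum_univ_two, hM, Matrix.sub_apply, Matrix.smul_apply,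
        smul_eq_mul, map_sub, map_mul, hA, rbM, ← L.red_rho, Matrix.map_apply, Glue.d_sub hd, drv,
        AlgHom.commutes, IsLocalRing.ResidueField.algebraMap_eq, Matrix.one_apply, e]
      fin_cases i <;> fin_cases j <;> simp [Glue.d_one hd, Glue.d_zero hd] <;> ring
    obtain ⟨w, hw⟩ := exists_preimage hM'M hM'0 hM0 hM'v
    show (drv L d τ).mulVec v₀ + (rbM D τ).mulVec (-u) = (1 : (ResidueField O)) • (-u) + (0 : (ResidueField O)) • v₀
    rw [h1, Matrix.one_mulVec, one_smul, zero_smul, add_zero, ← hw, Matrix.mulVec_mulVec, hN,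
      Matrix.zero_mulVec, zero_add]

end FLTAgent.ModLift
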